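import Mathlib

/-!
# Definition-agnostic cores for Lemma FE of the CSP backup route (helper7 #3041)

* `three_mul_card_fiber_le` (K1): fibres of a group hom with a value outside `{1,-1}`
  (precisely: some `g₁` with `χ g₁ ≠ 1` and `χ g₁ ^ 2 ≠ 1`) have at most `card G / 3` elements.
* `mob` (K2): the Moebius map `P ↦ (P + w) / (P + 1)` on `ZMod r`.
* `le_four_of_cover` (K3): the counting step.
* `exists_sq_mob_not_sq` (K4): the pigeonhole step on squares.
-/

namespace Fermat.Agent.S41.CspFE93

open Finset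

section K1

variable {G H : Type*} [Group G] [Fintype G] [DecidableEq G] [Group H] [DecidableEq H]

/-- (K1) If `χ g₁` is neither `1` nor of square `1`, every fibre of `χ` has at most a third of
the elements of `G`. -/
theorem three_mul_card_fiber_le (χ : G →* H) (g₁ : G) (h1 : χ g₁ ≠ 1) (h2 : χ g₁ ^ 2 ≠ 1)
    (κ : H) : 3 * (univ.filter fun g => χ g = κ).card ≤ Fintype.card G := by
  classical
  set F : Finset G := univ.filter fun g => χ g = κ with hF
  set F1 : Finset G := F.image (fun g => g₁ * g) with hF1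
  set F2 : Finset G := F.image (fun g => g₁ ^ 2 * g) with hF2
  have c1 : F1.card = F.card := card_image_of_injective _ (mul_right_injective g₁)
  have c2 : F2.card = F.card := card_image_of_injective _ (mul_right_injective (g₁ ^ 2))
  have m0 : ∀ g ∈ F, χ g = κ := fun g hg => (mem_filter.mp hg).2
  have m1 : ∀ g ∈ F1, χ g = χ g₁ * κ := by
    intro g hg
    obtain ⟨x, hx, rfl⟩ := mem_image.mp hg
    rw [map_mul, m0 x hx]
  have m2 : ∀ g ∈ F2, χ g = χ g₁ ^ 2 * κ := by
    intro g hg
    obtain ⟨x, hx, rfl⟩ := mem_image.mp hg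
    rw [map_mul, map_pow, m0 x hx]
  have d01 : Disjoint F F1 := by
    rw [Finset.disjoint_left]
    intro g hg hg1
    have := m1 g hg1
    rw [m0 g hg] at this
    exact h1 (by simpa using this.symm)
  have d02 : Disjoint F F2 := by
    rw [Finset.disjoint_left]
    intro g hg hg2
    have := m2 g hg2
    rw [m0 g hg] at this
    exact h2 (by simpa using this.symm)
  have d12 : Disjoint F1 F2 := by
    rw [Finset.disjoint_left]
    intro g hg1 hg2
    have e := (m1 g hg1).symm.trans (m2 g hg2)
    have : χ g₁ = χ g₁ ^ 2 := mul_right_cancel e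
    apply h1
    have h3 : χ g₁ * 1 = χ g₁ * χ g₁ := by rw [mul_one, ← sq]; exact this
    exact (mul_left_cancel h3).symm
  have hd : Disjoint (F ∪ F1) F2 := by
    rw [Finset.disjoint_union_left]; exact ⟨d02, d12⟩
  have hcard : ((F ∪ F1) ∪ F2).card = 3 * F.card := by
    rw [card_union_of_disjoint hd, card_union_of_disjoint d01, c1, c2]; ring
  calc 3 * F.card = ((F ∪ F1) ∪ F2).card := hcard.symm
    _ ≤ (univ : Finset G).card := card_le_card (subset_univ _)
    _ = Fintype.card G := card_univ

end K1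

section K2

variable {r : ℕ} [Fact r.Prime]

/-- (K2) The Moebius map `L(P) = (P + w) / (P + 1)`. -/
def mob (w P : ZMod r) : ZMod r := (P + w) / (P + 1)

theorem mob_ne_zero {w P : ZMod r} (h1 : P ≠ -1) (hw : P ≠ -w) : mob w P ≠ 0 := by
  unfold mob
  have a : P + 1 ≠ 0 := fun h => h1 (eq_neg_of_add_eq_zero_left h)
  have b : P + w ≠ 0 := fun h => hw (eq_neg_of_add_eq_zero_left h)
  exact div_ne_zero b a

theorem mob_ne_one {w P : ZMod r} (hw1 : w ≠ 1) (h1 : P ≠ -1) : mob w P ≠ 1 := by
  unfold mob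
  have a : P + 1 ≠ 0 := fun h => h1 (eq_neg_of_add_eq_zero_left h)
  intro h
  rw [div_eq_one_iff_eq a] at h
  exact hw1 (add_left_cancel h)

theorem mob_ne_self {w P : ZMod r} (hw1 : w ≠ 1) (h0 : P ≠ 0) (h1 : P ≠ -1) : mob w P ≠ w := by
  unfold mob
  have a : P + 1 ≠ 0 := fun h => h1 (eq_neg_of_add_eq_zero_left h)
  intro h
  rw [div_eq_iff a] at h
  have : P * (1 - w) = 0 := by linear_combination h
  rcases mul_eq_zero.mp this with h | h
  · exact h0 h
  · exact hw1 (sub_eq_zero.mp h).symm

theorem mob_inj {w P Q : ZMod r} (hw1 : w ≠ 1) (hP : P ≠ -1) (hQ : Q ≠ -1)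
    (h : mob w P = mob w Q) : P = Q := by
  unfold mob at h
  have a : P + 1 ≠ 0 := fun h => hP (eq_neg_of_add_eq_zero_left h)
  have b : Q + 1 ≠ 0 := fun h => hQ (eq_neg_of_add_eq_zero_left h)
  rw [div_eq_div_iff a b] at h
  have : (P - Q) * (1 - w) = 0 := by linear_combination h
  rcases mul_eq_zero.mp this with h | h
  · exact sub_eq_zero.mp h
  · exact absurd (sub_eq_zero.mp h).symm hw1

end K2

end Fermat.Agent.S41.CspFE93
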