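import Fermat.Agent.S41.CspFE93.Cores

/-!
# (K3) the counting step and (K4) the pigeonhole step of Lemma FE (helper7 #3041)
-/

namespace Fermat.Agent.S41.CspFE93

open Finset

variable {r : ℕ} [Fact r.Prime]

/-- (K3) If every `P ∉ {0,-1,-w}` has `L(P) ∈ A` or `P ∈ B`, where `1 ∈ A` and `A`, `B` have at
most `(r-1)/3` elements, then `r ≤ 4`. -/
theorem le_four_of_cover {w : ZMod r} (hw1 : w ≠ 1) (A B : Finset (ZMod r))
    (hA1 : (1 : ZMod r) ∈ A) (hA : 3 * A.card ≤ r - 1) (hB : 3 * B.card ≤ r - 1)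
    (hcov : ∀ P : ZMod r, P ≠ 0 → P ≠ -1 → P ≠ -w → mob w P ∈ A ∨ P ∈ B) : r ≤ 4 := by
  classical
  have hr : 2 ≤ r := (Fact.out : r.Prime).two_le
  set T : Finset (ZMod r) := {0, -1, -w} with hT
  have hTc : T.card ≤ 3 := Finset.card_le_three
  set S : Finset (ZMod r) := univ \ T with hS
  have hScard : r - 3 ≤ S.card := by
    have h1 : S.card = (univ : Finset (ZMod r)).card - T.card := by
      rw [hS, card_sdiff_of_subset (subset_univ _)]
    have h2 : (univ : Finset (ZMod r)).card = r := by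
      rw [card_univ, ZMod.card]
    omega
  have memS : ∀ P, P ∈ S ↔ P ≠ 0 ∧ P ≠ -1 ∧ P ≠ -w := by
    intro P
    simp [hS, hT]
  set SA : Finset (ZMod r) := S.filter fun P => mob w P ∈ A with hSA
  have hsub : S ⊆ SA ∪ B := by
    intro P hP
    obtain ⟨h0, h1, hw⟩ := (memS P).mp hP
    rcases hcov P h0 h1 hw with h | h
    · exact mem_union_left _ (mem_filter.mpr ⟨hP, h⟩)
    · exact mem_union_right _ h
  have hinj : Set.InjOn (mob w) (SA : Set (ZMod r)) := by
    intro P hP Q hQ h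
    have hP' := (memS P).mp (mem_filter.mp hP).1
    have hQ' := (memS Q).mp (mem_filter.mp hQ).1
    exact mob_inj hw1 hP'.2.1 hQ'.2.1 h
  have himg : SA.image (mob w) ⊆ A.erase 1 := by
    intro z hz
    obtain ⟨P, hP, rfl⟩ := mem_image.mp hz
    have hP' := (memS P).mp (mem_filter.mp hP).1
    exact mem_erase.mpr ⟨mob_ne_one hw1 hP'.2.1, (mem_filter.mp hP).2⟩
  have hSAcard : SA.card ≤ A.card - 1 := by
    have := card_le_card himg
    rw [card_image_of_injOn hinj, card_erase_of_mem hA1] at this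
    exact this
  have hApos : 1 ≤ A.card := card_pos.mpr ⟨1, hA1⟩
  have h3 : S.card ≤ SA.card + B.card := (card_le_card hsub).trans (card_union_le _ _)
  omega

/-- `-1` is not a square in `ZMod r` for `r ≡ 3 mod 4`. -/
theorem not_isSquare_neg_one (hr : r % 4 = 3) : ¬ IsSquare (-1 : ZMod r) := by
  rw [ZMod.exists_sq_eq_neg_one_iff]
  simp [hr]

/-- `-w` is not a square in `ZMod r` for `r ≡ 3 mod 4` and `w` a nonzero square. -/
theorem not_isSquare_neg_of_isSquare (hr : r % 4 = 3) {w : ZMod r} (hw : IsSquare w)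
    (hw0 : w ≠ 0) : ¬ IsSquare (-w) := by
  intro h
  apply not_isSquare_neg_one (r := r) hr
  obtain ⟨x, hx⟩ := hw
  obtain ⟨y, hy⟩ := h
  have hx0 : x ≠ 0 := by
    rintro rfl
    exact hw0 (by simpa using hx)
  refine ⟨y / x, ?_⟩
  field_simp
  have : -(x * x) = y * y := by rw [← hx]; exact hy
  linear_combination this

/-- (K4) For `r ≡ 3 mod 4` and `w` a nonzero square `≠ 1` there is a nonzero square `P`
(automatically `P ≠ -1, -w`) with `L(P)` a non-square. -/
theorem exists_sq_mob_not_sq (hr : r % 4 = 3) {w : ZMod r} (hw : IsSquare w) (hw0 : w ≠ 0)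
    (hw1 : w ≠ 1) :
    ∃ P : ZMod r, P ≠ 0 ∧ IsSquare P ∧ P ≠ -1 ∧ P ≠ -w ∧ ¬ IsSquare (mob w P) := by
  classical
  by_contra hcon
  replace hcon : ∀ P : ZMod r, P ≠ 0 → IsSquare P → P ≠ -1 → P ≠ -w → IsSquare (mob w P) := by
    intro P h0 hs h1 h2
    by_contra hns
    exact hcon ⟨P, h0, hs, h1, h2, hns⟩
  set Q : Finset (ZMod r) := univ.filter fun P => P ≠ 0 ∧ IsSquare P with hQ
  have memQ : ∀ P, P ∈ Q ↔ P ≠ 0 ∧ IsSquare P := by
    intro P; simp [hQ]
  have hne1 : ∀ P : ZMod r, IsSquare P → P ≠ -1 := by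
    rintro P hP rfl
    exact not_isSquare_neg_one hr hP
  have hnew : ∀ P : ZMod r, IsSquare P → P ≠ -w := by
    rintro P hP rfl
    exact not_isSquare_neg_of_isSquare hr hw hw0 hP
  have hinj : Set.InjOn (mob w) (Q : Set (ZMod r)) := by
    intro P hP R hR h
    exact mob_inj hw1 (hne1 P ((memQ P).mp hP).2) (hne1 R ((memQ R).mp hR).2) h
  have h1Q : (1 : ZMod r) ∈ Q := (memQ 1).mpr ⟨one_ne_zero, ⟨1, by ring⟩⟩
  have hwQ : w ∈ Q := (memQ w).mpr ⟨hw0, hw⟩
  have himg : Q.image (mob w) ⊆ (Q.erase 1).erase w := by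
    intro z hz
    obtain ⟨P, hP, rfl⟩ := mem_image.mp hz
    obtain ⟨hP0, hPsq⟩ := (memQ P).mp hP
    have a1 := hne1 P hPsq
    have a2 := hnew P hPsq
    refine mem_erase.mpr ⟨mob_ne_self hw1 hP0 a1, mem_erase.mpr ⟨mob_ne_one hw1 a1, ?_⟩⟩
    exact (memQ _).mpr ⟨mob_ne_zero a1 a2, hcon P hP0 hPsq a1 a2⟩
  have hcard := card_le_card himg
  rw [card_image_of_injOn hinj,
    card_erase_of_mem (mem_erase.mpr ⟨hw1, hwQ⟩), card_erase_of_mem h1Q] at hcard
  have : 2 ≤ Q.card := by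
    have : ({1, w} : Finset (ZMod r)) ⊆ Q := by
      intro z hz
      rcases mem_insert.mp hz with rfl | hz
      · exact h1Q
      · rw [mem_singleton.mp hz]; exact hwQ
    have h2 := card_le_card this
    rwa [card_pair (Ne.symm hw1)] at h2
  omega

end Fermat.Agent.S41.CspFE93
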