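import Fermat.Agent.S41.CspFE93.Count

/-!
# Step (b) of Lemma FE (helper7 #3041): the quadratic character has zero coefficient

Literal statement requested by helper7 (#3107): `coef_eq_zero_of_quadratic`.
-/

namespace Fermat.Agent.S41.CspFE93

open Finset

variable {r : ℕ} [Fact r.Prime] {F : Type*} [Field F]

/-- The product of two nonzero non-squares of `ZMod r` is a square. -/
theorem isSquare_mul_of_not_isSquare {a b : ZMod r} (ha0 : a ≠ 0) (hb0 : b ≠ 0)
    (ha : ¬ IsSquare a) (hb : ¬ IsSquare b) : IsSquare (a * b) := by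
  rw [ZMod.euler_criterion r (mul_ne_zero ha0 hb0), mul_pow]
  have h1 : a ^ (r / 2) = -1 := by
    rcases ZMod.pow_div_two_eq_neg_one_or_one r ha0 with h | h
    · exact absurd ((ZMod.euler_criterion r ha0).mpr h) ha
    · exact h
  have h2 : b ^ (r / 2) = -1 := by
    rcases ZMod.pow_div_two_eq_neg_one_or_one r hb0 with h | h
    · exact absurd ((ZMod.euler_criterion r hb0).mpr h) hb
    · exact h
  rw [h1, h2]; ring

/-- A character with `χ ^ 2 = 1` is trivial on nonzero squares. -/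
theorem apply_eq_one_of_isSquare (χ : MulChar (ZMod r) F) (hχ2 : χ ^ 2 = 1) {P : ZMod r}
    (hP0 : P ≠ 0) (hP : IsSquare P) : χ P = 1 := by
  obtain ⟨s, rfl⟩ := hP
  have hs0 : s ≠ 0 := by
    rintro rfl; exact hP0 (by ring)
  have hsu : IsUnit s := isUnit_iff_ne_zero.mpr hs0
  rw [map_mul, ← sq, ← MulChar.pow_apply' χ two_ne_zero, hχ2, MulChar.one_apply hsu]

/-- A nontrivial character with `χ ^ 2 = 1` is `≠ 1` at every nonzero non-square. -/
theorem apply_ne_one_of_not_isSquare (χ : MulChar (ZMod r) F) (hχ1 : χ ≠ 1) (hχ2 : χ ^ 2 = 1)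
    {L : ZMod r} (hL0 : L ≠ 0) (hL : ¬ IsSquare L) : χ L ≠ 1 := by
  intro h
  apply hχ1
  rw [MulChar.eq_one_iff]
  intro a
  have ha0 : (a : ZMod r) ≠ 0 := a.ne_zero
  by_cases hsq : IsSquare (a : ZMod r)
  · exact apply_eq_one_of_isSquare χ hχ2 ha0 hsq
  · have := apply_eq_one_of_isSquare χ hχ2 (mul_ne_zero ha0 hL0)
      (isSquare_mul_of_not_isSquare ha0 hL0 hsq hL)
    rwa [map_mul, h, mul_one] at this

/-- **Step (b) of Lemma FE** (literal statement of helper7 #3107). -/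
theorem coef_eq_zero_of_quadratic (hr4 : r % 4 = 3) (h2 : (2 : F) ≠ 0) (w : ZMod r)
    (hw0 : w ≠ 0) (hw1 : w ≠ 1) (hwsq : IsSquare w)
    (c : MulChar (ZMod r) F → F) (χ : MulChar (ZMod r) F) (hχ1 : χ ≠ 1) (hχ2 : χ ^ 2 = 1)
    (hid : ∀ P L : ZMod r, P ≠ 0 → P ≠ -1 → P ≠ -w → L * (P + 1) = P + w →
      (χ L - 1) * (c χ + χ⁻¹ P * c χ⁻¹) = 0) : c χ = 0 := by
  obtain ⟨P, hP0, hPsq, hP1, hPw, hLns⟩ := exists_sq_mob_not_sq hr4 hwsq hw0 hw1
  have hinv : χ⁻¹ = χ := by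
    rw [inv_eq_iff_mul_eq_one, ← sq]; exact hχ2
  have hPP1 : P + 1 ≠ 0 := fun h => hP1 (eq_neg_of_add_eq_zero_left h)
  have hL : mob w P * (P + 1) = P + w := by
    unfold mob; exact div_mul_cancel₀ _ hPP1
  have hL0 : mob w P ≠ 0 := mob_ne_zero hP1 hPw
  have key := hid P (mob w P) hP0 hP1 hPw hL
  rw [hinv, apply_eq_one_of_isSquare χ hχ2 hP0 hPsq, one_mul] at key
  rcases mul_eq_zero.mp key with h | h
  · exact absurd (sub_eq_zero.mp h) (apply_ne_one_of_not_isSquare χ hχ1 hχ2 hL0 hLns)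
  · have : (2 : F) * c χ = 0 := by linear_combination h
    rcases mul_eq_zero.mp this with h' | h'
    · exact absurd h' h2
    · exact h'

end Fermat.Agent.S41.CspFE93
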