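import Fermat.Agent.S41.CspFE93.Count

/-!
# Step (a) of Lemma FE (helper7 #3041): characters of order `≥ 3` have zero coefficient

Literal statement requested by helper7 (#3107): `coef_eq_zero_of_sq_ne_one`.
-/

namespace Fermat.Agent.S41.CspFE93

open Finset

variable {r : ℕ} [Fact r.Prime] {F : Type*} [Field F]

/-- Fibre bound for a multiplicative character of `ZMod r` taking a value `ζ` on a unit with
`ζ ≠ 1`, `ζ ^ 2 ≠ 1`. -/
theorem three_mul_card_fib_le [DecidableEq F] (ψ : MulChar (ZMod r) F) (a : (ZMod r)ˣ)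
    (h1 : ψ a ≠ 1) (h2 : ψ a ^ 2 ≠ 1) (κ : F) :
    3 * (univ.filter fun z : ZMod r => z ≠ 0 ∧ ψ z = κ).card ≤ r - 1 := by
  classical
  set B : Finset (ZMod r) := univ.filter fun z : ZMod r => z ≠ 0 ∧ ψ z = κ with hB
  rcases B.eq_empty_or_nonempty with hemp | ⟨z0, hz0⟩
  · rw [hemp]; simp
  obtain ⟨hz00, hz0κ⟩ := (mem_filter.mp hz0).2
  set g0 : (ZMod r)ˣ := Units.mk0 z0 hz00 with hg0
  have hcardU : Fintype.card (ZMod r)ˣ = r - 1 := by
    rw [ZMod.card_units_eq_totient, Nat.totient_prime (Fact.out : r.Prime)]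
  have hK1 := three_mul_card_fiber_le ψ.toUnitHom a
    (by
      intro h
      apply h1
      have := congrArg (fun u : Fˣ => (u : F)) h
      simpa [MulChar.coe_toUnitHom] using this)
    (by
      intro h
      apply h2
      have := congrArg (fun u : Fˣ => (u : F)) h
      simpa [MulChar.coe_toUnitHom] using this)
    (ψ.toUnitHom g0)
  rw [hcardU] at hK1
  refine le_trans ?_ hK1
  apply Nat.mul_le_mul_left
  -- `B` injects into the fibre via `Units.mk0`
  have : B ⊆ (univ.filter fun g : (ZMod r)ˣ => ψ.toUnitHom g = ψ.toUnitHom g0).image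
      (fun g : (ZMod r)ˣ => (g : ZMod r)) := by
    intro z hz
    obtain ⟨hz0', hzκ⟩ := (mem_filter.mp hz).2
    refine mem_image.mpr ⟨Units.mk0 z hz0', mem_filter.mpr ⟨mem_univ _, ?_⟩, rfl⟩
    apply Units.ext
    rw [MulChar.coe_toUnitHom, MulChar.coe_toUnitHom]
    simp only [Units.val_mk0, hg0]
    rw [hzκ, hz0κ]
  exact (card_le_card this).trans card_image_le

set_option linter.unusedVariables false in
/-- **Step (a) of Lemma FE** (literal statement of helper7 #3107). -/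
theorem coef_eq_zero_of_sq_ne_one (hr : 5 ≤ r) (w : ZMod r) (hw0 : w ≠ 0) (hw1 : w ≠ 1)
    (c : MulChar (ZMod r) F → F) (χ : MulChar (ZMod r) F) (hχ : χ ^ 2 ≠ 1)
    (hid : ∀ P L : ZMod r, P ≠ 0 → P ≠ -1 → P ≠ -w → L * (P + 1) = P + w →
      (χ L - 1) * (c χ + χ⁻¹ P * c χ⁻¹) = 0) : c χ = 0 := by
  classical
  by_contra hc
  obtain ⟨a, ha⟩ := MulChar.ne_one_iff.mp hχ
  rw [MulChar.pow_apply_coe] at ha
  have ha1 : χ a ≠ 1 := by
    intro h; apply ha; rw [h]; ring
  have hia1 : χ⁻¹ a ≠ 1 := by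
    rw [MulChar.inv_apply_eq_inv']
    intro h
    exact ha1 (inv_eq_one.mp h)
  have hia2 : χ⁻¹ a ^ 2 ≠ 1 := by
    rw [MulChar.inv_apply_eq_inv', inv_pow]
    intro h
    exact ha (inv_eq_one.mp h)
  -- the two small sets
  set A : Finset (ZMod r) := univ.filter fun z : ZMod r => z ≠ 0 ∧ χ z = 1 with hA
  set κ : F := -c χ / c χ⁻¹ with hκ
  set B : Finset (ZMod r) := univ.filter fun z : ZMod r => z ≠ 0 ∧ χ⁻¹ z = κ with hB
  have hAcard : 3 * A.card ≤ r - 1 := three_mul_card_fib_le χ a ha1 ha 1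
  have hBcard : 3 * B.card ≤ r - 1 := three_mul_card_fib_le χ⁻¹ a hia1 hia2 κ
  have hA1 : (1 : ZMod r) ∈ A := mem_filter.mpr ⟨mem_univ _, one_ne_zero, map_one χ⟩
  have hcov : ∀ P : ZMod r, P ≠ 0 → P ≠ -1 → P ≠ -w → mob w P ∈ A ∨ P ∈ B := by
    intro P h0 h1 hw
    have hP1 : P + 1 ≠ 0 := fun h => h1 (eq_neg_of_add_eq_zero_left h)
    have hL : mob w P * (P + 1) = P + w := by
      unfold mob; exact div_mul_cancel₀ _ hP1
    rcases mul_eq_zero.mp (hid P (mob w P) h0 h1 hw hL) with h | h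
    · left
      exact mem_filter.mpr ⟨mem_univ _, mob_ne_zero h1 hw, sub_eq_zero.mp h⟩
    · right
      have hci : c χ⁻¹ ≠ 0 := by
        intro h'
        rw [h', mul_zero, add_zero] at h
        exact hc h
      refine mem_filter.mpr ⟨mem_univ _, h0, ?_⟩
      rw [hκ, eq_div_iff hci]
      linear_combination h
  have := le_four_of_cover hw1 A B hA1 hAcard hBcard hcov
  omega

end Fermat.Agent.S41.CspFE93
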